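import Fermat.Agent.S48.A.Cyclo
import Fermat.Agent.S29.Assemble
import Fermat.Agent.S29.Abstract

/-!
# S48 / layer M : abstract algebra with diamonds and a determinant character  (interface; owner helper6)

KEYS (each ~150-250 lines, PORTS of finished proofs; no modular forms):

* [S48/M-ABS-a] `exists_ES_moduleD` : copy of `S29.exists_ES_module` (S29/Assemble.lean, AssembleAux.lean).
  New: a second family of operators `D ℓ` on `X`, `y` is an eigenvector of `D ℓ` with eigenvalue `d ℓ`, and the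
  relation is `Θ (T ℓ c) = σ Θ (D ℓ c) + ℓ σ⁻¹ Θ c` on Galois conjugates.  For `w = g x`, `x = (1 ⊗ Θ) y`:
  `a w = g (1 ⊗ Θ)(T y) = σ g (1 ⊗ Θ)(D y) + ℓ σ⁻¹ w = d σ w + ℓ σ⁻¹ w`; apply `σ`.
  (`Rk_Θk_ES` of AssembleAux has to be restated with `D`.)
* [S48/M-ABS-b] `exists_residualRepD` : copy of `S29.exists_residualRep` + `AbstractAux.quad_all` with the
  cyclotomic character replaced by an arbitrary character `χ` (`χ σ = e ℓ` for Frobenius lifts at `ℓ ∤ M`,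
  trivial on inertia at `ℓ ∤ M`), `(ℓ : k)` replaced by `e ℓ` everywhere.
* [S48/M-ABS-c] `exists_dirChar` : the Galois character of a character `ε` of `(ℤ/M)ˣ`: copy of
  `AbstractAux.exists_cyclo` with `ζ` a primitive `M`-th root of unity, `χ₀ = hζ.autToPow ℚ : GQ →* (ZMod M)ˣ`,
  `χ = ε ∘ χ₀`.  `σ ζ = ζ ^ ℓ` for a Frobenius lift at `ℓ ∤ M` because the `M`-th roots of unity are distinct
  modulo a place over `ℓ ∤ M` (`X^M - 1` separable mod `ℓ`; generalise `pow_eq_of_sub_mem` from `p` prime to `M`: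
  `∏_{0<i<M} (1 - ζ^i) = M` is a unit of `A`).
-/

set_option autoImplicit false

open TensorProduct Polynomial

namespace Fermat.Agent.S48.M

open Fermat.Agent.S29 Fermat.Agent.S29.AssembleAux Fermat.Agent.S29.AbstractAux

/-- the Galois character attached to a character of `(ℤ/N)ˣ` -/
theorem exists_galChar (N : ℕ) [NeZero N] {H : Type} [Group H] (θ : (ZMod N)ˣ →* H) :
    ∃ χ : S29.GQ →* H,
      (∃ L : IntermediateField ℚ S29.Qb, FiniteDimensional ℚ L ∧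
        ∀ σ : S29.GQ, (∀ x ∈ L, σ x = x) → χ σ = 1) ∧
      (∀ ℓ : ℕ, ℓ.Prime → ¬ ℓ ∣ N → ∀ A : ValuationSubring S29.Qb, A.LiesOverPrime ℓ →
        ∀ σ : S29.GQ, A.IsFrobeniusAt σ ℓ → ∀ u : (ZMod N)ˣ, (u : ZMod N) = (ℓ : ZMod N) →
          χ σ = θ u) ∧
      (∀ ℓ : ℕ, ℓ.Prime → ¬ ℓ ∣ N → ∀ A : ValuationSubring S29.Qb, A.LiesOverPrime ℓ →
        ∀ σ ∈ A.inertiaSubgroupIn ℚ, χ σ = 1) := by
  obtain ⟨ζ, hζ⟩ := HasEnoughRootsOfUnity.exists_primitiveRoot S29.Qb N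
  set χ₀ : S29.GQ →* (ZMod N)ˣ := hζ.autToPow ℚ with hχ₀
  have hspec : ∀ σ : S29.GQ, ζ ^ ((χ₀ σ : (ZMod N)ˣ) : ZMod N).val = σ ζ := fun σ =>
    hζ.autToPow_spec ℚ σ
  have key : ∀ (σ : S29.GQ) (n : ℕ), σ ζ = ζ ^ n →
      ((χ₀ σ : (ZMod N)ˣ) : ZMod N) = (n : ZMod N) := by
    intro σ n h
    rw [← hspec σ] at h
    have hfo : IsOfFinOrder ζ :=
      isOfFinOrder_iff_pow_eq_one.mpr ⟨N, NeZero.pos N, hζ.pow_eq_one⟩
    have := hfo.pow_eq_pow_iff_modEq.mp h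
    rw [← hζ.eq_orderOf] at this
    have h2 := (ZMod.natCast_eq_natCast_iff _ _ _).mpr this
    rwa [ZMod.natCast_val, ZMod.cast_id', id] at h2
  have key1 : ∀ σ : S29.GQ, σ ζ = ζ → χ₀ σ = 1 := by
    intro σ h
    have h2 := key σ 1 (by rw [pow_one]; exact h)
    exact Units.ext (by rw [h2]; simp)
  refine ⟨θ.comp χ₀, ?_, ?_, ?_⟩
  · refine ⟨IntermediateField.adjoin ℚ {ζ}, ?_, ?_⟩
    · exact IntermediateField.adjoin.finiteDimensional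
        ((AlgebraicClosure.isAlgebraic ℚ).isAlgebraic ζ).isIntegral
    · intro σ hσ
      rw [MonoidHom.comp_apply, key1 σ (hσ ζ (IntermediateField.mem_adjoin_simple_self ℚ ζ)),
        map_one]
  · intro ℓ hℓ hℓN A hA σ hσ u hu
    have h3 := key σ ℓ (S48.frob_root hℓ hℓN A hA σ hσ ζ hζ.pow_eq_one)
    rw [MonoidHom.comp_apply]
    congr 1
    exact Units.ext (h3.trans hu.symm)
  · intro ℓ hℓ hℓN A hA σ hσ
    have hζA : ζ ∈ A := S48.acyc_mem_of_pow_eq_one A (NeZero.pos N) hζ.pow_eq_one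
    have h1 := inertia_sub_mem A hσ hζA
    have h2 : σ ζ = ζ := S48.acyc_root_eq_of_sub_mem hℓ hA hℓN
      (by rw [← map_pow, hζ.pow_eq_one, map_one]) hζ.pow_eq_one h1
    rw [MonoidHom.comp_apply, key1 σ h2, map_one]

/-- the determinant character `Frob_ℓ ↦ ℓ θ(ℓ)` -/
theorem exists_detChar (N : ℕ) [NeZero N] {k : Type} [Field k] {p : ℕ} (hp : p.Prime) [CharP k p]
    (θ : (ZMod N)ˣ →* kˣ) :
    ∃ χ : S29.GQ →* kˣ,
      (∃ L : IntermediateField ℚ S29.Qb, FiniteDimensional ℚ L ∧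
        ∀ σ : S29.GQ, (∀ x ∈ L, σ x = x) → χ σ = 1) ∧
      (∀ ℓ : ℕ, ℓ.Prime → ¬ ℓ ∣ N → ℓ ≠ p → ∀ A : ValuationSubring S29.Qb, A.LiesOverPrime ℓ →
        ∀ σ : S29.GQ, A.IsFrobeniusAt σ ℓ → ∀ u : (ZMod N)ˣ, (u : ZMod N) = (ℓ : ZMod N) →
          ((χ σ : kˣ) : k) = (ℓ : k) * ((θ u : kˣ) : k)) ∧
      (∀ ℓ : ℕ, ℓ.Prime → ¬ ℓ ∣ N → ℓ ≠ p → ∀ A : ValuationSubring S29.Qb, A.LiesOverPrime ℓ →
        ∀ σ ∈ A.inertiaSubgroupIn ℚ, χ σ = 1) := by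
  obtain ⟨χ₁, ⟨L₁, hL₁, h₁⟩, hF₁, hI₁⟩ := exists_cyclo k hp
  obtain ⟨χ₂, ⟨L₂, hL₂, h₂⟩, hF₂, hI₂⟩ := exists_galChar N θ
  refine ⟨χ₁ * χ₂, ⟨L₁ ⊔ L₂, IntermediateField.finiteDimensional_sup L₁ L₂, fun σ hσ => ?_⟩, ?_, ?_⟩
  · rw [MonoidHom.mul_apply, h₁ σ fun x hx => hσ x ((le_sup_left : L₁ ≤ L₁ ⊔ L₂) hx),
      h₂ σ fun x hx => hσ x ((le_sup_right : L₂ ≤ L₁ ⊔ L₂) hx), one_mul]
  · intro ℓ hℓ hℓN hne A hA σ hσ u hu
    rw [MonoidHom.mul_apply, Units.val_mul, hF₁ ℓ hℓ hne A hA σ hσ, hF₂ ℓ hℓ hℓN A hA σ hσ u hu]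
  · intro ℓ hℓ hℓN hne A hA σ hσ
    rw [MonoidHom.mul_apply, hI₁ ℓ hℓ hne A hA σ hσ, hI₂ ℓ hℓ hℓN A hA σ hσ, one_mul]


/-- [S48/M-ABS-c] -/
theorem exists_dirChar (k : Type) [Field k] (M : ℕ) [NeZero M] (ε : (ZMod M)ˣ →* kˣ) :
    ∃ χ : GQ →* kˣ,
      (∃ L : IntermediateField ℚ Qb, FiniteDimensional ℚ L ∧
        ∀ σ : GQ, (∀ x ∈ L, σ x = x) → χ σ = 1) ∧
      (∀ (ℓ : ℕ) (_ : ℓ.Prime) (h : Nat.Coprime ℓ M) (A : ValuationSubring Qb), A.LiesOverPrime ℓ →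
        ∀ σ : GQ, A.IsFrobeniusAt σ ℓ → χ σ = ε (ZMod.unitOfCoprime ℓ h)) ∧
      (∀ ℓ : ℕ, ℓ.Prime → Nat.Coprime ℓ M → ∀ A : ValuationSubring Qb, A.LiesOverPrime ℓ →
        ∀ σ ∈ A.inertiaSubgroupIn ℚ, χ σ = 1) := by
  obtain ⟨χ, hL, hF, hI⟩ := exists_galChar M ε
  refine ⟨χ, hL, ?_, ?_⟩
  · intro ℓ hℓ h A hA σ hσ
    exact hF ℓ hℓ (fun hd => hℓ.one_lt.ne' (Nat.Coprime.eq_one_of_dvd h hd)) A hA σ hσ _
      (ZMod.coe_unitOfCoprime ℓ h)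
  · intro ℓ hℓ h A hA σ hσ
    exact hI ℓ hℓ (fun hd => hℓ.one_lt.ne' (Nat.Coprime.eq_one_of_dvd h hd)) A hA σ hσ

end Fermat.Agent.S48.M
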