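import Fermat.Agent.S29.Assemble
import Fermat.Agent.S29.Abstract

/-!
# S48 / layer M : abstract algebra with diamonds and a determinant character  (interface; owner helper6)

KEYS (each ~150-250 lines, PORTS of finished proofs; no modular forms):

* [S48/M-ABS-a] `exists_ES_moduleD` : copy of `S29.exists_ES_module` (S29/Assemble.lean, AssembleAux.lean).
  New: a second family of operators `D ℓ` on `X`, `y` is an eigenvector of `D ℓ` with eigenvalue `d ℓ`, and the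
  relation is `Θ (T ℓ c) = σ Θ (D ℓ c) + ℓ σ⁻¹ Θ c` on Galois conjugates.  For `w = g x`, `x = (1 ⊗ Θ) y`:
  `a w = g (1 ⊗ Θ)(T y) = σ g (1 ⊗ Θ)(D y) + ℓ σ⁻¹ w = d σ w + ℓ σ⁻¹ w`; apply `σ`.
  (`Rk_Θk_ES` of AssembleAux has to be restated with `D`.)
* [S48/M-ABS-b] `exists_residualRepD` : copy of `S29.exists_residualRep` + `AbstractAux.quad_all` with the
  cyclotomic character replaced by an arbitrary character `χ` (`χ σ = e ℓ` for Frobenius lifts at `ℓ ∤ M`,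
  trivial on inertia at `ℓ ∤ M`), `(ℓ : k)` replaced by `e ℓ` everywhere.
* [S48/M-ABS-c] `exists_dirChar` : the Galois character of a character `ε` of `(ℤ/M)ˣ`: copy of
  `AbstractAux.exists_cyclo` with `ζ` a primitive `M`-th root of unity, `χ₀ = hζ.autToPow ℚ : GQ →* (ZMod M)ˣ`,
  `χ = ε ∘ χ₀`.  `σ ζ = ζ ^ ℓ` for a Frobenius lift at `ℓ ∤ M` because the `M`-th roots of unity are distinct
  modulo a place over `ℓ ∤ M` (`X^M - 1` separable mod `ℓ`; generalise `pow_eq_of_sub_mem` from `p` prime to `M`: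
  `∏_{0<i<M} (1 - ζ^i) = M` is a unit of `A`).
-/

set_option autoImplicit false

open TensorProduct Polynomial

namespace Fermat.Agent.S48.M

open Fermat.Agent.S29 Fermat.Agent.S29.AbstractAux

/-- every `g` kills a quadratic with constant term `χ g` -/
theorem quad_allD {k : Type} [Field k] (M : ℕ) (hM : M ≠ 0)
    (W : Type) [AddCommGroup W] [Module k W]
    (ρ : GQ →* Module.End k W) (hfin : GaloisFactorsThroughFiniteLevel ρ) (a e : ℕ → k)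
    (hES : ∀ ℓ : ℕ, ℓ.Prime → ¬ ℓ ∣ M → ∀ A : ValuationSubring Qb, A.LiesOverPrime ℓ →
      ∀ σ : GQ, A.IsFrobeniusAt σ ℓ →
        ρ σ * ρ σ - a ℓ • ρ σ + e ℓ • (1 : Module.End k W) = 0)
    (χ : GQ →* kˣ)
    (hχfin : ∃ L : IntermediateField ℚ Qb, FiniteDimensional ℚ L ∧
        ∀ σ : GQ, (∀ x ∈ L, σ x = x) → χ σ = 1)
    (hχF : ∀ ℓ : ℕ, ℓ.Prime → ¬ ℓ ∣ M → ∀ A : ValuationSubring Qb, A.LiesOverPrime ℓ →
        ∀ σ : GQ, A.IsFrobeniusAt σ ℓ → ((χ σ : kˣ) : k) = e ℓ) (g : GQ) :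
    ∃ t : k, ρ g * ρ g - t • ρ g + ((χ g : kˣ) : k) • (1 : Module.End k W) = 0 := by
  obtain ⟨L₁, hL₁, h₁⟩ := hfin
  obtain ⟨L₂, hL₂, h₂⟩ := hχfin
  have hL : FiniteDimensional ℚ (L₁ ⊔ L₂ : IntermediateField ℚ Qb) :=
    IntermediateField.finiteDimensional_sup L₁ L₂
  obtain ⟨ℓ, A, σ, b, hℓ, hℓM, hA, hσ, hg⟩ := exists_frobenius_pow (L₁ ⊔ L₂) hL M hM g
  have hfix : ∀ x ∈ (L₁ ⊔ L₂ : IntermediateField ℚ Qb), ((σ ^ b)⁻¹ * g) x = x := by
    intro x hx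
    rw [AlgEquiv.mul_apply, hg x hx]
    exact (σ ^ b).symm_apply_apply x
  have e₁ : ρ g = ρ σ ^ b := by
    have := h₁ ((σ ^ b)⁻¹ * g) (fun x hx => hfix x ((le_sup_left : L₁ ≤ L₁ ⊔ L₂) hx))
    have h3 : ρ g = ρ (σ ^ b) * ρ ((σ ^ b)⁻¹ * g) := by
      rw [← map_mul, mul_inv_cancel_left]
    rw [h3, this, mul_one, map_pow]
  have e₂ : χ g = χ σ ^ b := by
    have := h₂ ((σ ^ b)⁻¹ * g) (fun x hx => hfix x ((le_sup_right : L₂ ≤ L₁ ⊔ L₂) hx))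
    have h3 : χ g = χ (σ ^ b) * χ ((σ ^ b)⁻¹ * g) := by
      rw [← map_mul, mul_inv_cancel_left]
    rw [h3, this, mul_one, map_pow]
  obtain ⟨t, ht⟩ := exists_quadratic_pow (ρ σ) (a ℓ) (e ℓ) (hES ℓ hℓ hℓM A hA σ hσ) b
  refine ⟨t, ?_⟩
  rw [e₁, e₂, Units.val_pow_eq_pow_val, hχF ℓ hℓ hℓM A hA σ hσ]
  exact ht


/-- [S48/M-ABS-b] -/
theorem exists_residualRepD {k : Type} [Field k] [IsAlgClosed k]
    (M : ℕ) (hM : M ≠ 0)
    (W : Type) [AddCommGroup W] [Module k W] [FiniteDimensional k W] [Nontrivial W]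
    (ρ : GQ →* Module.End k W) (hfin : GaloisFactorsThroughFiniteLevel ρ) (a e : ℕ → k)
    (hES : ∀ ℓ : ℕ, ℓ.Prime → ¬ ℓ ∣ M → ∀ A : ValuationSubring Qb, A.LiesOverPrime ℓ →
      ∀ σ : GQ, A.IsFrobeniusAt σ ℓ →
        ρ σ * ρ σ - a ℓ • ρ σ + e ℓ • (1 : Module.End k W) = 0)
    (hur : ∀ ℓ : ℕ, ℓ.Prime → ¬ ℓ ∣ M → ∀ A : ValuationSubring Qb, A.LiesOverPrime ℓ →
      ∀ σ ∈ A.inertiaSubgroupIn ℚ, ρ σ = 1)
    (χ : GQ →* kˣ)
    (hχfin : ∃ L : IntermediateField ℚ Qb, FiniteDimensional ℚ L ∧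
        ∀ σ : GQ, (∀ x ∈ L, σ x = x) → χ σ = 1)
    (hχF : ∀ ℓ : ℕ, ℓ.Prime → ¬ ℓ ∣ M → ∀ A : ValuationSubring Qb, A.LiesOverPrime ℓ →
        ∀ σ : GQ, A.IsFrobeniusAt σ ℓ → ((χ σ : kˣ) : k) = e ℓ)
    (hχI : ∀ ℓ : ℕ, ℓ.Prime → ¬ ℓ ∣ M → ∀ A : ValuationSubring Qb, A.LiesOverPrime ℓ →
        ∀ σ ∈ A.inertiaSubgroupIn ℚ, χ σ = 1) :
    ∃ r : ResidualGaloisRep k,
      (∀ ℓ : ℕ, ℓ.Prime → ¬ ℓ ∣ M → ∀ A : ValuationSubring Qb, A.LiesOverPrime ℓ →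
        ∀ σ : GQ, A.IsFrobeniusAt σ ℓ →
          LinearMap.charpoly (r.ρ σ) = X ^ 2 - C (a ℓ) * X + C (e ℓ)) ∧
      (∀ ℓ : ℕ, ℓ.Prime → ¬ ℓ ∣ M → r.IsUnramifiedAt ℓ) := by
  have hq := quad_allD M hM W ρ hfin a e hES χ hχfin hχF
  obtain ⟨V, hV0, hV, hmin⟩ := exists_min_invariant ρ
  set ρV := restr ρ V hV with hρV
  have hntV : Nontrivial V := Submodule.nontrivial_iff_ne_bot.mpr hV0
  have hqV : ∀ g, ∃ t : k, ρV g * ρV g - t • ρV g + ((χ g : kˣ) : k) • (1 : Module.End k V) = 0 :=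
    fun g => (hq g).imp fun t ht => restr_quad ρ V hV g t _ ht
  obtain ⟨hle, hdet⟩ := finrank_le_two_of_quadratic ρV χ (restr_irr ρ V hV hmin) hqV
  have hpos : 0 < Module.finrank k V := Module.finrank_pos
  have hunit : ∀ {U : Type} [AddCommGroup U] [Module k U] (r : GQ →* Module.End k U) (g : GQ),
      IsUnit (r g) := fun r g => (Group.isUnit g).map r
  obtain ⟨L₁, hL₁, h₁⟩ := hfin
  rcases (by omega : Module.finrank k V = 2 ∨ Module.finrank k V = 1) with h2 | h1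
  · refine ⟨{ V := V, finrank_eq := h2, ρ := ρV, factorsThroughFiniteLevel :=
      ⟨L₁, hL₁, fun σ hσ => restr_eq_one ρ V hV σ (h₁ σ hσ)⟩ }, ?_, ?_⟩
    · intro ℓ hℓ hℓM A hA σ hσ
      exact charpoly_of_quad h2 (ρV σ) (hunit ρV σ) (a ℓ) (e ℓ)
        (restr_quad ρ V hV σ _ _ (hES ℓ hℓ hℓM A hA σ hσ))
        (by rw [hdet h2 σ, hχF ℓ hℓ hℓM A hA σ hσ])
    · intro ℓ hℓ hℓM A hA σ hσ
      exact restr_eq_one ρ V hV σ (hur ℓ hℓ hℓM A hA σ hσ)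
  · -- the character `ψ`
    let ψ : GQ →* kˣ := (Units.map (LinearMap.det : Module.End k V →* k)).comp ρV.toHomUnits
    have hψ : ∀ g, ρV g = ((ψ g : kˣ) : k) • (1 : Module.End k V) := by
      intro g
      obtain ⟨c, hc, -⟩ := LinearMap.existsUnique_eq_smul_id_of_finrank_eq_one h1 (ρV g)
      have hc' : ρV g = c • (1 : Module.End k V) := hc
      have : ((ψ g : kˣ) : k) = LinearMap.det (ρV g) := rfl
      rw [this, hc', LinearMap.det_smul, h1, pow_one, map_one, mul_one]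
    have hψ1 : ∀ g, ρ g = 1 → ψ g = 1 := by
      intro g hg
      have : ρV g = 1 := restr_eq_one ρ V hV g hg
      apply Units.ext
      show LinearMap.det (ρV g) = 1
      rw [this, map_one]
    let r' : GQ →* Module.End k (Fin 2 → k) :=
      { toFun := fun g => dg ((ψ g : kˣ) : k) ((χ g * (ψ g)⁻¹ : kˣ) : k)
        map_one' := by simp [dg_one]
        map_mul' := fun g h => by
          rw [← dg_mul]
          congr 1
          · simp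
          · simp only [map_mul, mul_inv_rev, Units.val_mul]
            ring }
    obtain ⟨L₂, hL₂, h₂⟩ := hχfin
    have hr1 : ∀ g, ρ g = 1 → χ g = 1 → r' g = 1 := by
      intro g hg hg'
      show dg ((ψ g : kˣ) : k) ((χ g * (ψ g)⁻¹ : kˣ) : k) = 1
      rw [hψ1 g hg, hg']
      simp [dg_one]
    refine ⟨{ V := Fin 2 → k, finrank_eq := by simp, ρ := r', factorsThroughFiniteLevel :=
      ⟨L₁ ⊔ L₂, IntermediateField.finiteDimensional_sup L₁ L₂, fun σ hσ =>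
        hr1 σ (h₁ σ fun x hx => hσ x ((le_sup_left : L₁ ≤ L₁ ⊔ L₂) hx))
          (h₂ σ fun x hx => hσ x ((le_sup_right : L₂ ≤ L₁ ⊔ L₂) hx))⟩ }, ?_, ?_⟩
    · intro ℓ hℓ hℓM A hA σ hσ
      have hχσ := hχF ℓ hℓ hℓM A hA σ hσ
      have hroot : ((ψ σ : kˣ) : k) * ((ψ σ : kˣ) : k) - a ℓ * ((ψ σ : kˣ) : k) + (e ℓ) = 0 := by
        have h3 := restr_quad ρ V hV σ _ _ (hES ℓ hℓ hℓM A hA σ hσ)
        rw [← hρV, hψ σ] at h3
        have h4 : (((ψ σ : kˣ) : k) * ((ψ σ : kˣ) : k) - a ℓ * ((ψ σ : kˣ) : k) + (e ℓ))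
            • (1 : Module.End k V) = 0 := by
          rw [← h3, add_smul, sub_smul, smul_mul_smul_comm, mul_one, smul_smul]
        rcases smul_eq_zero.mp h4 with h5 | h5
        · exact h5
        · exact absurd h5 one_ne_zero
      have hψ0 : ((ψ σ : kˣ) : k) ≠ 0 := (ψ σ).ne_zero
      have hc2 : ((χ σ * (ψ σ)⁻¹ : kˣ) : k) = (e ℓ) / ((ψ σ : kˣ) : k) := by
        rw [Units.val_mul, hχσ, Units.val_inv_eq_inv_val, div_eq_mul_inv]
      refine charpoly_of_quad (by simp) (r' σ) (hunit r' σ) (a ℓ) (e ℓ) ?_ ?_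
      · show dg _ _ * dg _ _ - a ℓ • dg _ _ + _ = 0
        apply dg_quad _ _ _ _ hroot
        rw [hc2]
        field_simp
        linear_combination (e ℓ) * hroot
      · have : r' σ = dg ((ψ σ : kˣ) : k) ((χ σ * (ψ σ)⁻¹ : kˣ) : k) := rfl
        rw [this, det_dg, hc2]
        field_simp
    · intro ℓ hℓ hℓM A hA σ hσ
      exact hr1 σ (hur ℓ hℓ hℓM A hA σ hσ) (hχI ℓ hℓ hℓM A hA σ hσ)

end Fermat.Agent.S48.M
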