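import Fermat.Agent.S48.M.Abs.ESModule
import Fermat.Agent.S48.M.Abs.ResRep
import Fermat.Agent.S48.M.Abs.DirChar

/-!
# S48 / layer M : abstract algebra, last step  (helper11)

* `exists_GL2` : a `ResidualGaloisRep k` in matrix form.
* `abs_main` : `exists_ES_moduleD` + `exists_detChar` + `exists_residualRepD` + `exists_GL2` :
  from the Eichler–Shimura data (`𝒲, act, X, Θ, T, D`, an eigenvector `y ∈ k ⊗ X` with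
  `T ℓ y = (b ℓ / ε ℓ) y`, `D ℓ y = (ε ℓ)⁻¹ y`, `ε` a character of `(ℤ/N)ˣ`) to
  `r : G_ℚ → GL₂(k)` of finite level, unramified outside `N p`, `tr r(Frob_ℓ) = b ℓ`, `det r(Frob_ℓ) = ε(ℓ) ℓ`.
-/

set_option autoImplicit false

open TensorProduct Polynomial

namespace Fermat.Agent.S48.M

open Fermat.Agent.S29

theorem exists_GL2 {k : Type} [Field k] (r : ResidualGaloisRep k) :
    ∃ R : GQ →* GL (Fin 2) k, GaloisFactorsThroughFiniteLevel R ∧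
      (∀ σ : GQ, r.ρ σ = 1 → R σ = 1) ∧
      (∀ σ : GQ, (R σ : Matrix (Fin 2) (Fin 2) k).charpoly = LinearMap.charpoly (r.ρ σ)) := by
  let b : Module.Basis (Fin 2) k r.V := Module.finBasisOfFinrankEq k r.V r.finrank_eq
  let f : Module.End k r.V →* Matrix (Fin 2) (Fin 2) k :=
    ((LinearMap.toMatrixAlgEquiv b : Module.End k r.V ≃ₐ[k] Matrix (Fin 2) (Fin 2) k) :
      Module.End k r.V →* Matrix (Fin 2) (Fin 2) k)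
  let R : GQ →* GL (Fin 2) k := (f.comp r.ρ).toHomUnits
  have hR : ∀ σ, (R σ : Matrix (Fin 2) (Fin 2) k) = LinearMap.toMatrix b b (r.ρ σ) := fun σ => rfl
  have h1 : ∀ σ : GQ, r.ρ σ = 1 → R σ = 1 := by
    intro σ hσ
    apply Units.ext
    rw [hR, hσ]
    exact LinearMap.toMatrix_one b
  obtain ⟨L, hL, hfix⟩ := r.factorsThroughFiniteLevel
  refine ⟨R, ⟨L, hL, fun σ hσ => h1 σ (hfix σ hσ)⟩, h1, fun σ => ?_⟩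
  rw [hR, LinearMap.charpoly_toMatrix]

theorem trace_det_of_charpoly {k : Type} [Field k] (m : Matrix (Fin 2) (Fin 2) k) (t d : k)
    (h : m.charpoly = X ^ 2 - C t * X + C d) : m.trace = t ∧ m.det = d := by
  rw [Matrix.charpoly_fin_two] at h
  have h0 := congrArg (fun P : k[X] => P.coeff 0) h
  have h1 := congrArg (fun P : k[X] => P.coeff 1) h
  simp at h0 h1
  exact ⟨h1, h0⟩

theorem abs_main {k : Type} [Field k] [IsAlgClosed k] {p : ℕ} (hp : p.Prime) [CharP k p]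
    (𝒲 : Type) [AddCommGroup 𝒲] (hp𝒲 : ∀ w : 𝒲, p • w = 0) (act : GQ →* AddMonoid.End 𝒲)
    (X : Type) [AddCommGroup X] [Module.Free ℤ X] [Module.Finite ℤ X]
    (Θ : X →+ 𝒲) (hker : ∀ c, Θ c = 0 → ∃ c', c = p • c')
    (hlevel : ∀ c, ∃ L : IntermediateField ℚ Qb, FiniteDimensional ℚ L ∧
      ∀ g : GQ, (∀ x ∈ L, g x = x) → act g (Θ c) = Θ c)
    (N : ℕ) [NeZero N] (ε : (ZMod N)ˣ →* kˣ) (T D : ℕ → Module.End ℤ X) (b : ℕ → k)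
    (y : k ⊗[ℤ] X) (hy : y ≠ 0)
    (hTy : ∀ ℓ : ℕ, ℓ.Prime → ¬ ℓ ∣ N * p → ∀ u : (ZMod N)ˣ, (u : ZMod N) = (ℓ : ZMod N) →
      (T ℓ).baseChange k y = (b ℓ * (((ε u)⁻¹ : kˣ) : k)) • y)
    (hDy : ∀ ℓ : ℕ, ℓ.Prime → ¬ ℓ ∣ N * p → ∀ u : (ZMod N)ˣ, (u : ZMod N) = (ℓ : ZMod N) →
      (D ℓ).baseChange k y = (((ε u)⁻¹ : kˣ) : k) • y)
    (hES : ∀ ℓ : ℕ, ℓ.Prime → ¬ ℓ ∣ N * p → ∀ A : ValuationSubring Qb, A.LiesOverPrime ℓ →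
      ∀ σ : GQ, A.IsFrobeniusAt σ ℓ → ∀ (g : GQ) (c : X),
        act g (Θ (T ℓ c)) = act σ (act g (Θ (D ℓ c))) + ℓ • act σ⁻¹ (act g (Θ c)))
    (hI : ∀ ℓ : ℕ, ℓ.Prime → ¬ ℓ ∣ N * p → ∀ A : ValuationSubring Qb, A.LiesOverPrime ℓ →
      ∀ τ ∈ A.inertiaSubgroupIn ℚ, ∀ (g : GQ) (c : X), act τ (act g (Θ c)) = act g (Θ c)) :
    ∃ r : GQ →* GL (Fin 2) k, GaloisFactorsThroughFiniteLevel r ∧
      ∀ ℓ : ℕ, ℓ.Prime → ¬ ℓ ∣ N * p → ∀ A : ValuationSubring Qb, A.LiesOverPrime ℓ →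
        (∀ σ ∈ A.inertiaSubgroupIn ℚ, r σ = 1) ∧
        ∀ σ : GQ, A.IsFrobeniusAt σ ℓ → ∀ u : (ZMod N)ˣ, (u : ZMod N) = (ℓ : ZMod N) →
          (r σ : Matrix (Fin 2) (Fin 2) k).trace = b ℓ ∧
          (r σ : Matrix (Fin 2) (Fin 2) k).det = ((ε u : kˣ) : k) * (ℓ : k) := by
  classical
  have hNp : N * p ≠ 0 := Nat.mul_ne_zero (NeZero.ne N) hp.ne_zero
  have hcop : ∀ ℓ : ℕ, ℓ.Prime → ¬ ℓ ∣ N * p → Nat.Coprime ℓ N := fun ℓ hℓ h =>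
    (Nat.Prime.coprime_iff_not_dvd hℓ).mpr fun hd => h (Dvd.dvd.mul_right hd p)
  have hnN : ∀ ℓ : ℕ, ¬ ℓ ∣ N * p → ¬ ℓ ∣ N := fun ℓ h hd => h (Dvd.dvd.mul_right hd p)
  have hnp : ∀ ℓ : ℕ, ¬ ℓ ∣ N * p → ℓ ≠ p := fun ℓ h e => h (e ▸ Dvd.intro_left N rfl)
  -- the values of `ε` at integers
  let E : ℕ → kˣ := fun ℓ => if h : Nat.Coprime ℓ N then ε (ZMod.unitOfCoprime ℓ h) else 1
  have hE : ∀ ℓ : ℕ, ℓ.Prime → ¬ ℓ ∣ N * p → ∀ u : (ZMod N)ˣ, (u : ZMod N) = (ℓ : ZMod N) →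
      E ℓ = ε u := by
    intro ℓ hℓ h u hu
    have : E ℓ = ε (ZMod.unitOfCoprime ℓ (hcop ℓ hℓ h)) := dif_pos (hcop ℓ hℓ h)
    rw [this]
    congr 1
    exact Units.ext ((ZMod.coe_unitOfCoprime ℓ _).trans hu.symm)
  have hu0 : ∀ ℓ : ℕ, ℓ.Prime → ¬ ℓ ∣ N * p → ∃ u : (ZMod N)ˣ, (u : ZMod N) = (ℓ : ZMod N) :=
    fun ℓ hℓ h => ⟨ZMod.unitOfCoprime ℓ (hcop ℓ hℓ h), ZMod.coe_unitOfCoprime ℓ _⟩
  obtain ⟨W, _, _, _, _, ρ, hfin, hq, hur⟩ := exists_ES_moduleD hp 𝒲 hp𝒲 act X Θ hker hlevel (N * p)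
    T D (fun ℓ => b ℓ * (((E ℓ)⁻¹ : kˣ) : k)) (fun ℓ => (((E ℓ)⁻¹ : kˣ) : k)) y hy
    (fun ℓ hℓ h => by
      obtain ⟨u, hu⟩ := hu0 ℓ hℓ h
      rw [hE ℓ hℓ h u hu]; exact hTy ℓ hℓ h u hu)
    (fun ℓ hℓ h => by
      obtain ⟨u, hu⟩ := hu0 ℓ hℓ h
      rw [hE ℓ hℓ h u hu]; exact hDy ℓ hℓ h u hu) hES hI
  obtain ⟨χ, hχfin, hχF, hχI⟩ := exists_detChar N hp ε
  obtain ⟨r, hr, hrur⟩ := exists_residualRepD (N * p) hNp W ρ hfin b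
    (fun ℓ => (ℓ : k) * ((E ℓ : kˣ) : k))
    (fun ℓ hℓ h A hA σ hσ => by
      have h1 := hq ℓ hℓ h A hA σ hσ
      have h2 := congrArg (fun z : Module.End k W => ((E ℓ : kˣ) : k) • z) h1
      simp only [smul_add, smul_sub, smul_smul, smul_zero] at h2
      have e1 : ((E ℓ : kˣ) : k) * (((E ℓ)⁻¹ : kˣ) : k) = 1 := by
        rw [← Units.val_mul, mul_inv_cancel, Units.val_one]
      have e2 : ((E ℓ : kˣ) : k) * (b ℓ * (((E ℓ)⁻¹ : kˣ) : k)) = b ℓ := by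
        rw [mul_left_comm, e1, mul_one]
      rw [e1, e2, one_smul, mul_comm ((E ℓ : kˣ) : k) (ℓ : k)] at h2
      exact h2) hur χ hχfin
    (fun ℓ hℓ h A hA σ hσ => by
      obtain ⟨u, hu⟩ := hu0 ℓ hℓ h
      rw [hE ℓ hℓ h u hu]
      exact hχF ℓ hℓ (hnN ℓ h) (hnp ℓ h) A hA σ hσ u hu)
    (fun ℓ hℓ h A hA σ hσ => hχI ℓ hℓ (hnN ℓ h) (hnp ℓ h) A hA σ hσ)
  obtain ⟨R, hRfin, hR1, hRc⟩ := exists_GL2 r
  refine ⟨R, hRfin, fun ℓ hℓ h A hA => ⟨fun σ hσ => hR1 σ (hrur ℓ hℓ h A hA σ hσ), ?_⟩⟩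
  intro σ hσ u hu
  have h1 := trace_det_of_charpoly _ _ _ ((hRc σ).trans (hr ℓ hℓ h A hA σ hσ))
  rw [hE ℓ hℓ h u hu, mul_comm] at h1
  exact h1

end Fermat.Agent.S48.M
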